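import Fermat.Agent.A2.Mod.H13.Frame
import Fermat.Agent.A2.Mod.H378.L11
import Fermat.Agent.A2.Mod.H553.Fricke

/-!
# S36 / MOD3-SYM, part 1 (helper816): the `(α, β)` table of the Gauss valuations

Levels `N' = M q` and `N = M q²` (`A2/Mod/Spec` vocabulary; in this file the levels are
arbitrary: `N` and `N ℓ`).  `α = heckeAlphaBar E N ℓ` (inclusion), `β = heckeBetaBar E N ℓ`
(`t ↦ t^ℓ`).

* `isGaussInt_qExpand`, `isGaussInt_of_qExpand` : `f` is Gauss-integral iff `f(t^ℓ)` is;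
* `alpha_mem_iff`, `beta_mem_iff` : `V∞(Nℓ).comap α = V∞(N) = V∞(Nℓ).comap β`   (table, row FF);
* `alpha_mem_comap_iff`, `beta_mem_comap_iff` : the same for `V₀ = V∞ ∘ W`       (table, row VV);
* `alpha_beta_comm` : the commuting square `β_{Nℓ} ∘ α_N = α_{Nℓ} ∘ β_N`;
* nonunit versions.
-/

set_option autoImplicit false
set_option linter.unusedSectionVars false
set_option linter.style.haveILetI false
set_option synthInstance.maxHeartbeats 400000
set_option maxHeartbeats 1600000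

noncomputable section

namespace Fermat.Agent.S36.H816

open ModularCurve HahnSeries Polynomial
open Fermat.Agent Fermat.Agent.A2.Mod Fermat.Agent.A2.H708

/-! ## Generic: Gauss-integrality and `t ↦ t^ℓ` -/

section Generic

variable {L : Type*} [Field L] [Algebra ℚ L] (A : ValuationSubring L)
variable {F₀ F₁ : IntermediateField ℚ (LaurentSeries ℚ)}

theorem incl_qExpand (ℓ : ℕ) [NeZero ℓ] (U : LaurentSeries A) :
    incl A (qExpand A ℓ U) = qExpand L ℓ (incl A U) :=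
  ModularCurve.coeffMap_qExpand A.subtype ℓ U

theorem red_qExpand (ℓ : ℕ) [NeZero ℓ] (U : LaurentSeries A) :
    red A (qExpand A ℓ U) = qExpand _ ℓ (red A U) :=
  ModularCurve.coeffMap_qExpand (IsLocalRing.residue A) ℓ U

theorem red_qExpand_ne_zero (ℓ : ℕ) [NeZero ℓ] {U : LaurentSeries A} (hU : red A U ≠ 0) :
    red A (qExpand A ℓ U) ≠ 0 := by
  rw [red_qExpand]
  intro h
  apply hU
  apply qExpand_injective (R := IsLocalRing.ResidueField A) (N := ℓ)
  rw [h, map_zero]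

theorem qExpand_cst (ℓ : ℕ) [NeZero ℓ] (c : L) : qExpand L ℓ (cst c) = cst c := by
  show qExpand L ℓ (algebraMap L (LaurentSeries L) c) = algebraMap L (LaurentSeries L) c
  rw [algebraMap_laurentSeries_eq_single, qExpand_single, mul_zero]

/-- `f` Gauss-integral ⟹ `f(t^ℓ)` Gauss-integral. -/
theorem isGaussInt_qExpand (ℓ : ℕ) [NeZero ℓ]
    (hF : ∀ x ∈ laurentBaseChange L F₀, qExpand L ℓ x ∈ laurentBaseChange L F₁)
    {f : LaurentSeries L} (hf : IsGaussInt A F₀ f) : IsGaussInt A F₁ (qExpand L ℓ f) := by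
  obtain ⟨U₁, U₂, h0, hm, he⟩ := hf
  refine ⟨qExpand A ℓ U₁, qExpand A ℓ U₂, red_qExpand_ne_zero A ℓ h0, ?_, ?_⟩
  · rw [incl_qExpand]
    exact hF _ hm
  · rw [incl_qExpand, incl_qExpand, ← map_mul, he]

/-- `f(t^ℓ)` Gauss-integral ⟹ `f` Gauss-integral. -/
theorem isGaussInt_of_qExpand (ℓ : ℕ) [NeZero ℓ] (hgen : IntGen F₀) (hmax : AttainsMax A F₀)
    (hF : ∀ x ∈ laurentBaseChange L F₀, qExpand L ℓ x ∈ laurentBaseChange L F₁)
    {f : LaurentSeries L} (hfF : f ∈ laurentBaseChange L F₀)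
    (hf : IsGaussInt A F₁ (qExpand L ℓ f)) : IsGaussInt A F₀ f := by
  by_cases hf0 : f = 0
  · rw [hf0]; exact IsGaussInt.zero
  obtain ⟨c, U₁, U₂, hc, h₁, h₂, hm₁, hm₂, he⟩ := exists_normal_form hgen hmax hfF hf0
  have he' : qExpand L ℓ f * incl A (qExpand A ℓ U₂) = cst c * incl A (qExpand A ℓ U₁) := by
    rw [incl_qExpand, incl_qExpand, ← map_mul, he, map_mul, qExpand_cst]
  have hm₂' : incl A (qExpand A ℓ U₂) ∈ laurentBaseChange L F₁ := by
    rw [incl_qExpand]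
    exact hF _ hm₂
  have hcA : c ∈ A :=
    (isGaussInt_iff_of_normal_form (red_qExpand_ne_zero A ℓ h₁) (red_qExpand_ne_zero A ℓ h₂)
      hm₂' he').mp hf
  exact (isGaussInt_iff_of_normal_form h₁ h₂ hm₂ he).mpr hcA

end Generic

/-! ## The table for `V∞` and `V₀` -/

section Table

variable {P : ValuationSubring Qb} {E : IntermediateField ℚ Qb}
variable (N ℓ : ℕ) [NeZero N] [NeZero ℓ]

theorem qExpand_mem_FE {x : LaurentSeries E} (hx : x ∈ FE E N) : qExpand E ℓ x ∈ FE E (N * ℓ) := by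
  have h := (heckeBetaBar E N ℓ ⟨x, hx⟩).2
  rw [coe_heckeBetaBar] at h
  exact h

variable {N ℓ}

/-- Row FF, column `α`: `V∞(Nℓ).comap α = V∞(N)`. -/
theorem alpha_mem_iff [IsDiscreteValuationRing (RE P E)] {VN : ValuationSubring (FE E N)}
    {V : ValuationSubring (FE E (N * ℓ))} (hVN : IsVinf P E N VN) (hV : IsVinf P E (N * ℓ) V)
    (g : FE E N) : heckeAlphaBar E N ℓ g ∈ V ↔ g ∈ VN := by
  rw [hV (heckeAlphaBar E N ℓ g), hVN g, coe_heckeAlphaBar]
  constructor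
  · exact H378.isGaussInt_descend (RE P E) (intGen_full N)
      (attainsMax_of_isNoetherianRing _ _) (H378.FE_le E N ℓ) g.2
  · exact H378.isGaussInt_mono (RE P E) (H378.FE_le E N ℓ)

/-- Row FF, column `β`: `V∞(Nℓ).comap β = V∞(N)`. -/
theorem beta_mem_iff [IsDiscreteValuationRing (RE P E)] {VN : ValuationSubring (FE E N)}
    {V : ValuationSubring (FE E (N * ℓ))} (hVN : IsVinf P E N VN) (hV : IsVinf P E (N * ℓ) V)
    (g : FE E N) : heckeBetaBar E N ℓ g ∈ V ↔ g ∈ VN := by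
  rw [hV (heckeBetaBar E N ℓ g), hVN g, coe_heckeBetaBar]
  constructor
  · exact isGaussInt_of_qExpand (RE P E) ℓ (intGen_full N)
      (attainsMax_of_isNoetherianRing _ _) (fun x hx => qExpand_mem_FE N ℓ hx) g.2
  · exact isGaussInt_qExpand (RE P E) ℓ (fun x hx => qExpand_mem_FE N ℓ hx)

/-- A field homomorphism `φ` with `V.comap φ = V'` also matches the nonunits. -/
theorem mem_nonunits_iff_of_comap {F F' : Type*} [Field F] [Field F'] (φ : F' →+* F)
    {V : ValuationSubring F} {V' : ValuationSubring F'} (h : ∀ g, φ g ∈ V ↔ g ∈ V') (g : F') :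
    φ g ∈ V.nonunits ↔ g ∈ V'.nonunits := by
  rw [ValuationSubring.mem_nonunits_iff_or, ValuationSubring.mem_nonunits_iff_or,
    map_eq_zero, ← map_inv₀, h]

/-- Row VV: `V₀(Nℓ).comap α = V₀(N)` and `V₀(Nℓ).comap β = V₀(N)`, `V₀ = V∞ ∘ W`. -/
theorem alpha_mem_comap_iff [IsDiscreteValuationRing (RE P E)]
    {VN : ValuationSubring (FE E N)} {V : ValuationSubring (FE E (N * ℓ))}
    (hVN : IsVinf P E N VN) (hV : IsVinf P E (N * ℓ) V)
    {WN : FE E N ≃ₐ[E] FE E N} {W : FE E (N * ℓ) ≃ₐ[E] FE E (N * ℓ)}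
    (hWN : IsFricke E N WN) (hW : IsFricke E (N * ℓ) W) (g : FE E N) :
    heckeAlphaBar E N ℓ g ∈ V.comap (W : FE E (N * ℓ) →+* FE E (N * ℓ)) ↔
      g ∈ VN.comap (WN : FE E N →+* FE E N) := by
  rw [ValuationSubring.mem_comap, ValuationSubring.mem_comap]
  show W (heckeAlphaBar E N ℓ g) ∈ V ↔ WN g ∈ VN
  rw [(H553.frickeCompat E N ℓ WN W hWN hW g).1]
  exact beta_mem_iff hVN hV (WN g)

theorem beta_mem_comap_iff [IsDiscreteValuationRing (RE P E)]
    {VN : ValuationSubring (FE E N)} {V : ValuationSubring (FE E (N * ℓ))}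
    (hVN : IsVinf P E N VN) (hV : IsVinf P E (N * ℓ) V)
    {WN : FE E N ≃ₐ[E] FE E N} {W : FE E (N * ℓ) ≃ₐ[E] FE E (N * ℓ)}
    (hWN : IsFricke E N WN) (hW : IsFricke E (N * ℓ) W) (g : FE E N) :
    heckeBetaBar E N ℓ g ∈ V.comap (W : FE E (N * ℓ) →+* FE E (N * ℓ)) ↔
      g ∈ VN.comap (WN : FE E N →+* FE E N) := by
  rw [ValuationSubring.mem_comap, ValuationSubring.mem_comap]
  show W (heckeBetaBar E N ℓ g) ∈ V ↔ WN g ∈ VN
  rw [(H553.frickeCompat E N ℓ WN W hWN hW g).2]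
  exact alpha_mem_iff hVN hV (WN g)

/-- The commuting square `β_{Nℓ} ∘ α_N = α_{Nℓ} ∘ β_N` (both are `t ↦ t^ℓ`). -/
theorem alpha_beta_comm (g : FE E N) :
    heckeBetaBar E (N * ℓ) ℓ (heckeAlphaBar E N ℓ g) =
      heckeAlphaBar E (N * ℓ) ℓ (heckeBetaBar E N ℓ g) := by
  apply Subtype.ext
  rw [coe_heckeBetaBar, coe_heckeAlphaBar, coe_heckeAlphaBar, coe_heckeBetaBar]

end Table

end Fermat.Agent.S36.H816

end
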