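import Fermat.Agent.S36.H816.SymMid

/-!
# S36 / MOD3-SYM, part 4 (helper816): `V_mid ∘ β = V₀`, generator congruences, Fricke stability

* `IsMid.comap_beta_eq_or` : `Vm.comap β ∈ {V₁, V₂}` (two-extension theorem at level `M q`);
* `IsMid.comap_beta`       : `Vm.comap β = V₂ = V₁ ∘ W₁`      (table, row MID, column `β`);
* `IsMid.gen_cong`         : `j_{d q²} ≡ j_d mod 𝔪_{Vm}`, `d ∣ M`;
* `IsMid.fricke`           : `IsMid V₁ (Vm ∘ W)`.
-/

set_option autoImplicit false
set_option linter.unusedSectionVars false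
set_option linter.style.haveILetI false
set_option synthInstance.maxHeartbeats 400000
set_option maxHeartbeats 1600000

noncomputable section

namespace Fermat.Agent.S36.H816

open ModularCurve HahnSeries Polynomial IntermediateField
open Fermat.Agent Fermat.Agent.A2.Mod Fermat.Agent.A2.H708 Fermat.Agent.S28

variable {P : ValuationSubring Qb} {E : IntermediateField ℚ Qb}
variable {M q : ℕ} [NeZero M] [NeZero q]
variable {w : RE P E} {V₁ : ValuationSubring (FE E (M * q))}
  {Vm : ValuationSubring (FE E (M * q * q))}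

/-- **Two-extension theorem at level `M q`**, valuation form: a valuation subring of `F_{Mq}`
inducing the Gauss valuation on `E(x)` is `V∞` or `V₀`. -/
theorem eq_or_eq_of_isGaussOver (hS : Setting P E M q w)
    (hV₁ : IsVinf P E (M * q) V₁) {W₁ : FE E (M * q) ≃ₐ[E] FE E (M * q)}
    (hW₁ : IsFricke E (M * q) W₁) {V' : ValuationSubring (FE E (M * q))}
    (hG' : haveI := hS.dvr; A2.H489.IsGaussOver (RE P E) V' (xE E M q)) :
    V' = V₁ ∨ V' = V₁.comap (W₁ : FE E (M * q) →+* FE E (M * q)) := by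
  haveI := hS.dvr
  obtain ⟨htr, hfr, -⟩ := A2.Mod.H816.deg E M q hS.q_prime hS.q_not_dvd
  obtain ⟨b, c, hdvr, hT⟩ := A2.Mod.H13.twoExtHyp_of_leaves hS V₁ W₁ hV₁ hW₁
    (A2.Mod.H553.vzeroNe P E M q w) (A2.Mod.H816.deg E M q) (A2.Mod.H753.indInf P E M q w)
    (A2.Mod.H753.indZero P E M q w)
  have hpos : 0 < Module.finrank (IntermediateField.adjoin E ({xE E M q} : Set (FE E (M * q))))
      (FE E (M * q)) := by
    rw [hfr]
    have h1 := A2.Mod.dedekindPsi_pos_of_ne_zero M (NeZero.ne M)
    positivity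
  haveI hfin : FiniteDimensional (IntermediateField.adjoin E ({xE E M q} : Set (FE E (M * q))))
      (FE E (M * q)) := Module.finite_of_finrank_pos hpos
  have hG₁ := A2.Mod.H13.isGaussOver_xE hS.unif hV₁ htr
  have hover : A2.H489.IsOver (A2.H489.gaussRing E V₁ (xE E M q)) V' :=
    { mem := fun a => (hG₁.mem_iff_mem (E := E) hG' (a : E⟮xE E M q⟯).2).mp a.2
      nonunit := fun a ha =>
        (hG₁.mem_nonunits_iff_mem (E := E) hG' (a : E⟮xE E M q⟯).2).mp
          ((A2.H489.mem_maximalIdeal_gaussRing a).mp ha) }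
  exact hT.only hover

end Fermat.Agent.S36.H816

end
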