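import Fermat.Agent.S36.H816.SymTable
import Fermat.Agent.S36.H83.BetaUniq

/-!
# S36 / MOD3-SYM, part 6 (helper816): the middle valuation ring from `mid` and `mid_ne`

`Vm` a valuation subring of `F_{M q²}` with `Vm.comap α = V₁ = V∞(M q)`.

* `kron_dichotomy` : `j_{q²} ^ q ≡ j_q` or `j_{q²} ≡ j_q ^ q` modulo `𝔪_{Vm}` (Kronecker congruence
  `Φ_q(X, Y) ≡ (Y^q - X)(Y - X^q) mod q`);
* `isGaussOver_comap_beta_of_cong` : `Vm.comap β` induces the Gauss valuation on `E(x')`, `x' = j j_q`,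
  as soon as `β x' ≡ α u₀` for a polar `u₀`;
* `isMid_of_ne` : if `Vm ≠ V∞(M q²)` then `j_{q²} ≡ j`, i.e. `IsMid V₁ Vm`
  (uniqueness `h83_beta_unique` of helper83 for the first alternative).
-/

set_option autoImplicit false
set_option linter.unusedSectionVars false
set_option linter.style.haveILetI false
set_option synthInstance.maxHeartbeats 400000
set_option maxHeartbeats 1600000

noncomputable section

namespace Fermat.Agent.S36.H816

open ModularCurve HahnSeries Polynomial IntermediateField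
open Fermat.Agent Fermat.Agent.A2.Mod Fermat.Agent.A2.H708 Fermat.Agent.S28

variable {P : ValuationSubring Qb} {E : IntermediateField ℚ Qb}
variable {M q : ℕ} [NeZero M] [NeZero q]
variable {w : RE P E} {V₁ : ValuationSubring (FE E (M * q))}
  {Vm : ValuationSubring (FE E (M * q * q))}

/-! ## Facts using `Vm.comap α = V₁` only -/

section OverAlpha

theorem alpha_nonunits_of_comap
    (hcα : ∀ g : FE E (M * q), heckeAlphaBar E (M * q) q g ∈ Vm ↔ g ∈ V₁) (g : FE E (M * q)) :
    heckeAlphaBar E (M * q) q g ∈ Vm.nonunits ↔ g ∈ V₁.nonunits :=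
  mem_nonunits_iff_of_comap (heckeAlphaBar E (M * q) q : FE E (M * q) →+* FE E (M * q * q))
    hcα g

theorem jE_mem_of_comap [IsDiscreteValuationRing (RE P E)]
    (hcα : ∀ g : FE E (M * q), heckeAlphaBar E (M * q) q g ∈ Vm ↔ g ∈ V₁)
    (hV₁ : IsVinf P E (M * q) V₁) (d : ℕ) [NeZero d] (hd : d ∣ M * q) :
    jE E (M * q * q) d (hd.trans (dvd_mul_right _ q)) ∈ Vm := by
  rw [← A2.Mod.H553.αE_jE E (M * q) q d hd]
  exact (hcα _).mpr (jE_mem hV₁ d hd)

theorem natCast_mem_of_comap [IsDiscreteValuationRing (RE P E)]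
    (hcα : ∀ g : FE E (M * q), heckeAlphaBar E (M * q) q g ∈ Vm ↔ g ∈ V₁)
    (hP : P.LiesOverPrime q) (hV₁ : IsVinf P E (M * q) V₁) :
    ((q : ℕ) : FE E (M * q * q)) ∈ Vm.nonunits := by
  have h1 := (alpha_nonunits_of_comap hcα ((q : ℕ) : FE E (M * q))).mpr
    (natCast_mem_nonunits hP hV₁)
  rwa [map_natCast] at h1

/-- `j_{dq} ≡ j_d ^ q mod 𝔪_{Vm}` for `d ∣ M`. -/
theorem kronA_of_comap [IsDiscreteValuationRing (RE P E)]
    (hcα : ∀ g : FE E (M * q), heckeAlphaBar E (M * q) q g ∈ Vm ↔ g ∈ V₁) (hq : q.Prime)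
    (hP : P.LiesOverPrime q) (hV₁ : IsVinf P E (M * q) V₁) (d : ℕ) [NeZero d] (hd : d ∣ M) :
    jE E (M * q * q) (d * q) ((mul_dvd_mul_right hd q).trans (dvd_mul_right _ q)) -
      (jE E (M * q * q) d ((hd.trans (dvd_mul_right M q)).trans (dvd_mul_right _ q))) ^ q
      ∈ Vm.nonunits := by
  have h1 := kron_jE hq hP hV₁ d (hd.trans (dvd_mul_right M q)) (mul_dvd_mul_right hd q)
  have h2 := (alpha_nonunits_of_comap hcα _).mpr h1
  rw [map_sub, map_pow, A2.Mod.H553.αE_jE, A2.Mod.H553.αE_jE] at h2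
  exact h2

/-- `Vm.comap β` lies over `R_E`. -/
theorem isOver_comap_beta_of_comap [IsDiscreteValuationRing (RE P E)]
    (hcα : ∀ g : FE E (M * q), heckeAlphaBar E (M * q) q g ∈ Vm ↔ g ∈ V₁)
    (hV₁ : IsVinf P E (M * q) V₁) :
    A2.H489.IsOver (RE P E)
      (Vm.comap (heckeBetaBar E (M * q) q : FE E (M * q) →+* FE E (M * q * q))) where
  mem := fun r => by
    rw [ValuationSubring.mem_comap]
    have h1 : heckeBetaBar E (M * q) q (algebraMap (RE P E) (FE E (M * q)) r) ∈ Vm := by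
      rw [beta_algebraMap_RE]
      exact (hcα _).mpr ((A2.Mod.H13.isOver_of_isVinf hV₁).mem r)
    exact h1
  nonunit := fun r hr => by
    rw [mem_nonunits_comap_iff]
    have h1 : heckeBetaBar E (M * q) q (algebraMap (RE P E) (FE E (M * q)) r) ∈ Vm.nonunits := by
      rw [beta_algebraMap_RE]
      exact (alpha_nonunits_of_comap hcα _).mpr
        ((A2.Mod.H13.isOver_of_isVinf hV₁).nonunit r hr)
    exact h1

/-- **`Vm ∘ β` induces the Gauss valuation on `E(x')`** as soon as `β x' ≡ α u₀ mod 𝔪_{Vm}` for a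
polar transcendental `u₀`. -/
theorem isGaussOver_comap_beta_of_cong
    (hcα : ∀ g : FE E (M * q), heckeAlphaBar E (M * q) q g ∈ Vm ↔ g ∈ V₁)
    (hS : Setting P E M q w) (hV₁ : IsVinf P E (M * q) V₁)
    {u₀ : FE E (M * q)} {a : ℕ} (ha : 0 < a) (hpol : A2.Mod.H13.IsPolar E (M * q) u₀ a)
    (htr : Transcendental E u₀)
    (hx : heckeBetaBar E (M * q) q (xE E M q) - heckeAlphaBar E (M * q) q u₀ ∈ Vm.nonunits) :
    haveI := hS.dvr
    A2.H489.IsGaussOver (RE P E)
      (Vm.comap (heckeBetaBar E (M * q) q : FE E (M * q) →+* FE E (M * q * q)))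
      (xE E M q) := by
  haveI := hS.dvr
  have hG₀ : A2.H489.IsGaussOver (RE P E) V₁ u₀ :=
    A2.Mod.H13.isGaussOver_of_polar hV₁ hS.unif (NeZero.ne _) ha hpol
      (A2.Mod.H13.transcendental_RE htr)
  have hαu : heckeAlphaBar E (M * q) q u₀ ∈ Vm := (hcα _).mpr hG₀.mem
  have hβx : heckeBetaBar E (M * q) q (xE E M q) ∈ Vm := by
    have e : heckeBetaBar E (M * q) q (xE E M q)
        = (heckeBetaBar E (M * q) q (xE E M q) - heckeAlphaBar E (M * q) q u₀)
          + heckeAlphaBar E (M * q) q u₀ := by ring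
    rw [e]
    exact Vm.add_mem _ _ (mem_of_mem_nonunits Vm hx) hαu
  refine ⟨isOver_comap_beta_of_comap hcα hV₁, ValuationSubring.mem_comap.mpr hβx, ?_⟩
  intro p hp
  by_contra hne
  rw [mem_nonunits_comap_iff] at hp
  have h1 : aeval u₀ p ∉ V₁.nonunits := fun hmem => hne (hG₀.prim p hmem)
  have h2 : heckeAlphaBar E (M * q) q (aeval u₀ p) ∉ Vm.nonunits :=
    fun hmem => h1 ((alpha_nonunits_of_comap hcα _).mp hmem)
  have eα : heckeAlphaBar E (M * q) q (aeval u₀ p)
      = aeval (heckeAlphaBar E (M * q) q u₀) p :=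
    (Polynomial.aeval_algHom_apply ((heckeAlphaBar E (M * q) q).restrictScalars (RE P E))
      u₀ p).symm
  have eβ : heckeBetaBar E (M * q) q (aeval (xE E M q) p)
      = aeval (heckeBetaBar E (M * q) q (xE E M q)) p :=
    (Polynomial.aeval_algHom_apply ((heckeBetaBar E (M * q) q).restrictScalars (RE P E))
      (xE E M q) p).symm
  have hR : ∀ r : RE P E, algebraMap (RE P E) (FE E (M * q * q)) r ∈ Vm := by
    intro r
    have e : algebraMap (RE P E) (FE E (M * q * q)) r
        = heckeAlphaBar E (M * q) q (algebraMap (RE P E) (FE E (M * q)) r) := by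
      rw [A2.Mod.H13.algebraMap_RE_eq, A2.Mod.H13.algebraMap_RE_eq, AlgHom.commutes]
    rw [e]
    exact (hcα _).mpr ((A2.Mod.H13.isOver_of_isVinf hV₁).mem r)
  have h3 := aeval_sub_aeval_mem_nonunits Vm hR hβx hαu hx p
  have hp' : (heckeBetaBar E (M * q) q : FE E (M * q) →+* FE E (M * q * q))
      (aeval (xE E M q) p) ∈ Vm.nonunits := hp
  have hp'' : aeval (heckeBetaBar E (M * q) q (xE E M q)) p ∈ Vm.nonunits := by
    rw [← eβ]
    exact hp'
  apply h2
  rw [eα]
  have e : aeval (heckeAlphaBar E (M * q) q u₀) p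
      = aeval (heckeBetaBar E (M * q) q (xE E M q)) p
        - (aeval (heckeBetaBar E (M * q) q (xE E M q)) p
            - aeval (heckeAlphaBar E (M * q) q u₀) p) := by ring
  rw [e]
  exact sub_mem_nonunits Vm hp'' h3

end OverAlpha

/-! ## The Kronecker dichotomy -/

section Dichotomy

theorem mul_mem_nonunits_or {F : Type*} [Field F] (V : ValuationSubring F) {x y : F}
    (h : x * y ∈ V.nonunits) : x ∈ V.nonunits ∨ y ∈ V.nonunits := by
  rw [ValuationSubring.mem_nonunits_iff] at h ⊢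
  rw [ValuationSubring.mem_nonunits_iff]
  by_contra hcon
  rw [not_or, not_lt, not_lt] at hcon
  rw [map_mul] at h
  exact absurd h (not_lt.mpr (one_le_mul_of_one_le_of_one_le hcon.1 hcon.2))

/-- `Φ_q(j_q, j_{q²}) = 0` in `F_N`, for any level `N` divisible by `q²`. -/
theorem modPoly_eval_jqq (Φ : ModPolyData q) (N : ℕ) (hd : q ∣ N)
    (hdd : q * q ∣ N) :
    Φ.Φ.eval₂ (Polynomial.aeval (R := ℤ) (jE E N q hd)).toRingHom (jE E N (q * q) hdd) = 0 := by
  apply Subtype.ext
  have h := Polynomial.hom_eval₂ Φ.Φ (Polynomial.aeval (R := ℤ) (jE E N q hd)).toRingHom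
    (algebraMap (FE E N) (LaurentSeries E)) (jE E N (q * q) hdd)
  have h2 : ((Polynomial.eval₂ (Polynomial.aeval (R := ℤ) (jE E N q hd)).toRingHom
      (jE E N (q * q) hdd) Φ.Φ : FE E N) : LaurentSeries E)
      = Polynomial.eval₂ ((algebraMap (FE E N) (LaurentSeries E)).comp
          (Polynomial.aeval (R := ℤ) (jE E N q hd)).toRingHom)
          ((jE E N (q * q) hdd : FE E N) : LaurentSeries E) Φ.Φ := h
  rw [h2, S36.H83.h83_coe_comp_aeval, S36.H83.h83_coe_jE, S36.H83.h83_coe_jE,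
    ← qExpand_qExpand]
  exact h88_modPoly_eval_jpp E q Φ

/-- **Kronecker dichotomy** in a valuation ring of `F_N` containing `j_q` and lying over `q`. -/
theorem kron_dichotomy_gen (hq : q.Prime) (N : ℕ) (hd : q ∣ N) (hdd : q * q ∣ N)
    (V : ValuationSubring (FE E N)) (hqV : ((q : ℕ) : FE E N) ∈ V.nonunits)
    (hj : jE E N q hd ∈ V) :
    (jE E N (q * q) hdd) ^ q - jE E N q hd ∈ V.nonunits ∨
      jE E N (q * q) hdd - (jE E N q hd) ^ q ∈ V.nonunits := by
  haveI : Fact q.Prime := ⟨hq⟩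
  obtain ⟨Φ⟩ := Fermat.Agent.S28.H807.nonempty_modPolyData q hq
  obtain ⟨Θ, hΘ⟩ := h88_kronecker_int q Φ
  set φ : Polynomial ℤ →+* FE E N := (Polynomial.aeval (R := ℤ) (jE E N q hd)).toRingHom with hφ
  have hφV : ∀ c : Polynomial ℤ, φ c ∈ V := fun c => S36.H83.h83_aeval_mem V hj c
  -- `j_{q²} ∈ V` (integrally closed)
  have hjj : jE E N (q * q) hdd ∈ V := by
    refine A2.H48.mem_of_monic_root V (Φ.monic.map φ) (fun i => ?_) ?_
    · rw [Polynomial.coeff_map]
      exact hφV _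
    · rw [Polynomial.eval_map]
      exact modPoly_eval_jqq Φ N hd hdd
  have h0 := modPoly_eval_jqq (E := E) Φ N hd hdd
  rw [← hφ, hΘ, Polynomial.eval₂_add, Polynomial.eval₂_mul, Polynomial.eval₂_mul,
    Polynomial.eval₂_sub, Polynomial.eval₂_sub, Polynomial.eval₂_pow, Polynomial.eval₂_X,
    Polynomial.eval₂_C, Polynomial.eval₂_C, Polynomial.eval₂_C] at h0
  have e1 : φ (Polynomial.X : Polynomial ℤ) = jE E N q hd := by
    rw [hφ]
    simp
  have e2 : φ ((Polynomial.X : Polynomial ℤ) ^ q) = (jE E N q hd) ^ q := by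
    rw [map_pow, e1]
  have e3 : φ (Polynomial.C ((q : ℕ) : ℤ)) = ((q : ℕ) : FE E N) := by
    rw [hφ]
    simp
  rw [e1, e2, e3] at h0
  have hΘV : Θ.eval₂ φ (jE E N (q * q) hdd) ∈ V :=
    A2.Mod.H378.eval₂_mem_subring φ _ V.toSubring hφV hjj Θ
  have hprod : ((jE E N (q * q) hdd) ^ q - jE E N q hd) *
      (jE E N (q * q) hdd - (jE E N q hd) ^ q) ∈ V.nonunits := by
    have e : ((jE E N (q * q) hdd) ^ q - jE E N q hd) *
        (jE E N (q * q) hdd - (jE E N q hd) ^ q)
        = -(((q : ℕ) : FE E N) * Θ.eval₂ φ (jE E N (q * q) hdd)) := by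
      linear_combination h0
    rw [e]
    exact neg_mem_nonunits V (mul_mem_nonunits_left V hqV hΘV)
  exact mul_mem_nonunits_or V hprod

end Dichotomy

/-! ## The middle valuation ring from `mid` and `mid_ne` -/

section MidOfNe

/-- **`π = j_{q²} - j ∈ 𝔪_{Vm}`** for every extension `Vm ≠ V∞` of `V∞(M q)` along `α`. -/
theorem pi_mem_of_ne
    (hcα : ∀ g : FE E (M * q), heckeAlphaBar E (M * q) q g ∈ Vm ↔ g ∈ V₁)
    (hS : Setting P E M q w) (hV₁ : IsVinf P E (M * q) V₁)
    {W₁ : FE E (M * q) ≃ₐ[E] FE E (M * q)} (hW₁ : IsFricke E (M * q) W₁)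
    {VN : ValuationSubring (FE E (M * q * q))} (hVN : IsVinf P E (M * q * q) VN)
    (hne : Vm ≠ VN) : piMid E M q ∈ Vm.nonunits := by
  haveI := hS.dvr
  have hq := hS.q_prime
  have hP := hS.lies_over
  have hqV := natCast_mem_of_comap hcα hP hV₁
  have hd1 : (1 : ℕ) ∣ M * q := one_dvd _
  have hdq : q ∣ M * q := dvd_mul_left q M
  have hdq1 : 1 * q ∣ M * q := mul_dvd_mul_right (one_dvd M) q
  have hdqq : q * q ∣ M * q * q := Dvd.intro_left M (mul_assoc M q q).symm
  -- the three generators at level `M q²`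
  set c : FE E (M * q * q) := jE E (M * q * q) 1 (one_dvd _) with hc
  set a : FE E (M * q * q) := jE E (M * q * q) q (hdq.trans (dvd_mul_right _ q)) with ha
  set b : FE E (M * q * q) := jE E (M * q * q) (q * q) hdqq with hb
  have hcV : c ∈ Vm := jE_mem_of_comap hcα hV₁ 1 hd1
  have haV : a ∈ Vm := jE_mem_of_comap hcα hV₁ q hdq
  have hA : a - c ^ q ∈ Vm.nonunits := by
    have h1 := kronA_of_comap hcα hq hP hV₁ 1 (one_dvd M)
    have e : jE E (M * q * q) (1 * q)
        ((mul_dvd_mul_right (one_dvd M) q).trans (dvd_mul_right _ q)) = a :=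
      jE_congr (M * q * q) (one_mul q) _ _
    rw [e] at h1
    exact h1
  have hbV : b ∈ Vm := by
    obtain ⟨Φ⟩ := Fermat.Agent.S28.H807.nonempty_modPolyData q hq
    refine A2.H48.mem_of_monic_root Vm
      (Φ.monic.map (Polynomial.aeval (R := ℤ) a).toRingHom) (fun i => ?_) ?_
    · rw [Polynomial.coeff_map]
      exact S36.H83.h83_aeval_mem Vm haV _
    · rw [Polynomial.eval_map]
      exact modPoly_eval_jqq Φ (M * q * q) _ hdqq
  have hπ : piMid E M q = b - c := rfl
  rw [hπ]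
  rcases kron_dichotomy_gen hq (M * q * q) (hdq.trans (dvd_mul_right _ q)) hdqq Vm hqV haV
    with h | h
  · -- `j_{q²} ^ q ≡ j_q ≡ j ^ q`
    refine sub_mem_nonunits_of_pow Vm hq hqV hbV hcV ?_
    have e : b ^ q - c ^ q = (b ^ q - a) + (a - c ^ q) := by ring
    rw [e]
    exact add_mem_nonunits Vm h hA
  · -- `j_{q²} ≡ j_q ^ q`: then `Vm = V∞`
    exfalso
    have hB : b - a ^ q ∈ Vm.nonunits := h
    -- Gauss property of `Vm.comap β`
    set u₀ : FE E (M * q) := (jE E (M * q) 1 hd1) ^ (q * (q + 1)) with hu₀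
    have hpos : 0 < q * (q + 1) := Nat.mul_pos hq.pos (Nat.succ_pos q)
    have hpol : A2.Mod.H13.IsPolar E (M * q) u₀ (q * (q + 1)) := by
      have := isPolar_pow (A2.Mod.H13.isPolar_jE (E := E) (N := M * q) 1 hd1) (q * (q + 1))
      rwa [mul_one] at this
    have htr : Transcendental E u₀ :=
      (transcendental_jE (E := E) (M * q) 1 hd1).pow hpos
    have hx : heckeBetaBar E (M * q) q (xE E M q) - heckeAlphaBar E (M * q) q u₀
        ∈ Vm.nonunits := by
      have e1 : heckeBetaBar E (M * q) q (xE E M q) = a * b := by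
        rw [xE, map_mul]
        have hb1 := A2.Mod.H553.βE_jE E (M * q) q 1 hd1
        have hb2 := A2.Mod.H553.βE_jE E (M * q) q q hdq
        rw [show heckeBetaBar E (M * q) q = βE E (M * q) q from rfl, hb1, hb2]
        congr 1
        exact jE_congr (M * q * q) (one_mul q) _ _
      have e2 : heckeAlphaBar E (M * q) q u₀ = c ^ q * (c ^ q) ^ q := by
        rw [hu₀, map_pow, show heckeAlphaBar E (M * q) q = αE E (M * q) q from rfl,
          A2.Mod.H553.αE_jE E (M * q) q 1 hd1]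
        rw [← pow_mul, ← _root_.pow_add]
        congr 1
        ring
      rw [e1, e2]
      refine mul_sub_mul_mem_nonunits Vm (Vm.pow_mem hcV q) hbV hA ?_
      have e : b - (c ^ q) ^ q = (b - a ^ q) + (a ^ q - (c ^ q) ^ q) := by ring
      rw [e]
      exact add_mem_nonunits Vm hB
        (pow_sub_pow_mem_nonunits Vm haV (Vm.pow_mem hcV q) hA q)
    have hG := isGaussOver_comap_beta_of_cong hcα hS hV₁ hpos hpol htr hx
    rcases eq_or_eq_of_isGaussOver hS hV₁ hW₁ hG with hU | hU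
    · -- `Vm.comap β = V∞(M q)`: uniqueness
      apply hne
      refine S36.H83.h83_beta_unique hS.dvr hS.unif hq hdq hV₁ hVN Vm (fun f => ?_)
      have h2 : f ∈ Vm.comap (heckeBetaBar E (M * q) q : FE E (M * q) →+* FE E (M * q * q))
          ↔ f ∈ V₁ := by rw [hU]
      rw [ValuationSubring.mem_comap] at h2
      exact h2
    · -- `Vm.comap β = V₀(M q)`: Kronecker unit
      have hg : jE E (M * q) (1 * q) hdq1 - (jE E (M * q) 1 hd1) ^ q
          ∈ (Vm.comap (heckeBetaBar E (M * q) q :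
              FE E (M * q) →+* FE E (M * q * q))).nonunits := by
        rw [mem_nonunits_comap_iff]
        have e : (heckeBetaBar E (M * q) q : FE E (M * q) →+* FE E (M * q * q))
            (jE E (M * q) (1 * q) hdq1 - (jE E (M * q) 1 hd1) ^ q) = b - a ^ q := by
          show heckeBetaBar E (M * q) q _ = _
          rw [map_sub, map_pow, show heckeBetaBar E (M * q) q = βE E (M * q) q from rfl,
            A2.Mod.H553.βE_jE E (M * q) q (1 * q) hdq1, A2.Mod.H553.βE_jE E (M * q) q 1 hd1]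
          congr 1
          · exact jE_congr (M * q * q) (by rw [one_mul]) _ _
          · congr 1
            exact jE_congr (M * q * q) (one_mul q) _ _
        rw [e]
        exact hB
      rw [hU, mem_nonunits_comap_iff] at hg
      have hdM : M ∣ M * q := dvd_mul_right M q
      have hdMq : M * q ∣ M * q := dvd_rfl
      have hw1 : W₁ (jE E (M * q) (1 * q) hdq1) = jE E (M * q) M hdM :=
        hW₁.1 (1 * q) M hdq1 hdM (by ring)
      have hw2 : W₁ (jE E (M * q) 1 hd1) = jE E (M * q) (M * q) hdMq :=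
        hW₁.1 1 (M * q) hd1 hdMq (by ring)
      have hg' : jE E (M * q) M hdM - (jE E (M * q) (M * q) hdMq) ^ q ∈ V₁.nonunits := by
        have e : (W₁ : FE E (M * q) →+* FE E (M * q))
            (jE E (M * q) (1 * q) hdq1 - (jE E (M * q) 1 hd1) ^ q)
            = jE E (M * q) M hdM - (jE E (M * q) (M * q) hdMq) ^ q := by
          show W₁ _ = _
          rw [map_sub, map_pow, hw1, hw2]
        rw [← e]
        exact hg
      obtain ⟨hne0, hinv⟩ := kron_unit_jE hq hV₁ M hdM hdMq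
      have hg'' : (jE E (M * q) (M * q) hdMq) ^ q - jE E (M * q) M hdM ∈ V₁.nonunits := by
        have e : (jE E (M * q) (M * q) hdMq) ^ q - jE E (M * q) M hdM
            = -(jE E (M * q) M hdM - (jE E (M * q) (M * q) hdMq) ^ q) := by ring
        rw [e]
        exact neg_mem_nonunits V₁ hg'
      rw [ValuationSubring.mem_nonunits_iff_or] at hg''
      rcases hg'' with h4 | h4
      · exact hne0 h4
      · exact h4 hinv

/-- **Every extension `Vm ≠ V∞` of `V∞(M q)` along `α` is a middle valuation ring.** -/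
theorem isMid_of_ne
    (hcα : ∀ g : FE E (M * q), heckeAlphaBar E (M * q) q g ∈ Vm ↔ g ∈ V₁)
    (hS : Setting P E M q w) (hV₁ : IsVinf P E (M * q) V₁)
    {W₁ : FE E (M * q) ≃ₐ[E] FE E (M * q)} (hW₁ : IsFricke E (M * q) W₁)
    {VN : ValuationSubring (FE E (M * q * q))} (hVN : IsVinf P E (M * q * q) VN)
    (hne : Vm ≠ VN) : IsMid V₁ Vm :=
  ⟨hcα, pi_mem_of_ne hcα hS hV₁ hW₁ hVN hne⟩

end MidOfNe

end Fermat.Agent.S36.H816

end
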