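import Fermat.Agent.S36.H816.SymBase
import Fermat.Agent.A2.H489.TwoExtC

/-!
# S36 / MOD3-SYM, part 2 (helper816): Kronecker congruences for the generators

`V = V∞` the Gauss valuation ring of `F_N` (`IsVinf`), `P` over the prime `q`.

* `natCast_mem_nonunits` : `q ∈ 𝔪_V`;
* `kron_jE` : `j_{dq} - j_d ^ q ∈ 𝔪_V` for `d q ∣ N`   (no Frobenius lift needed);
* `sub_mem_nonunits_of_pow` : in a valuation ring with `q ∈ 𝔪`, `x^q - y^q ∈ 𝔪 ⟹ x - y ∈ 𝔪`.
-/

set_option autoImplicit false
set_option linter.unusedSectionVars false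
set_option linter.style.haveILetI false
set_option synthInstance.maxHeartbeats 400000
set_option maxHeartbeats 1600000

noncomputable section

namespace Fermat.Agent.S36.H816

open ModularCurve HahnSeries Polynomial
open Fermat.Agent Fermat.Agent.A2.Mod Fermat.Agent.A2.H708 Fermat.Agent.S28

section Val

variable {F : Type*} [Field F] (V : ValuationSubring F)

theorem add_mem_nonunits {x y : F} (hx : x ∈ V.nonunits) (hy : y ∈ V.nonunits) :
    x + y ∈ V.nonunits := by
  rw [ValuationSubring.mem_nonunits_iff] at hx hy ⊢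
  exact lt_of_le_of_lt (V.valuation.map_add x y) (max_lt hx hy)

theorem neg_mem_nonunits {x : F} (hx : x ∈ V.nonunits) : -x ∈ V.nonunits := by
  rw [ValuationSubring.mem_nonunits_iff] at hx ⊢
  rwa [Valuation.map_neg]

theorem sub_mem_nonunits {x y : F} (hx : x ∈ V.nonunits) (hy : y ∈ V.nonunits) :
    x - y ∈ V.nonunits := by
  rw [sub_eq_add_neg]
  exact add_mem_nonunits V hx (neg_mem_nonunits V hy)

theorem mul_mem_nonunits_left {x y : F} (hx : x ∈ V.nonunits) (hy : y ∈ V) :
    x * y ∈ V.nonunits := by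
  rw [ValuationSubring.mem_nonunits_iff] at hx ⊢
  rw [map_mul]
  exact mul_lt_one_of_lt_of_le hx ((ValuationSubring.valuation_le_one_iff V y).mpr hy)

theorem mul_mem_nonunits_right {x y : F} (hx : x ∈ V) (hy : y ∈ V.nonunits) :
    x * y ∈ V.nonunits := by
  rw [mul_comm]
  exact mul_mem_nonunits_left V hy hx

theorem mem_of_mem_nonunits {x : F} (hx : x ∈ V.nonunits) : x ∈ V :=
  ValuationSubring.nonunits_subset hx

theorem pow_mem_nonunits_iff {x : F} {n : ℕ} (hn : n ≠ 0) :
    x ^ n ∈ V.nonunits ↔ x ∈ V.nonunits := by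
  rw [ValuationSubring.mem_nonunits_iff, ValuationSubring.mem_nonunits_iff, map_pow]
  exact pow_lt_one_iff hn

/-- `x ≡ y` and `y ∉ 𝔪` ⟹ `x ∉ 𝔪`. -/
theorem not_mem_nonunits_of_sub {x y : F} (hxy : x - y ∈ V.nonunits) (hy : y ∉ V.nonunits) :
    x ∉ V.nonunits := by
  intro hx
  apply hy
  have : y = x - (x - y) := by ring
  rw [this]
  exact sub_mem_nonunits V hx hxy

/-- `a ≡ b` ⟹ `a ^ n ≡ b ^ n`. -/
theorem pow_sub_pow_mem_nonunits {a b : F} (ha : a ∈ V) (hb : b ∈ V)
    (hab : a - b ∈ V.nonunits) (n : ℕ) : a ^ n - b ^ n ∈ V.nonunits := by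
  induction n with
  | zero => simp only [pow_zero, sub_self]; rw [ValuationSubring.mem_nonunits_iff]; simp
  | succ n ih =>
      have e : a ^ (n + 1) - b ^ (n + 1) = (a ^ n - b ^ n) * a + b ^ n * (a - b) := by ring
      rw [e]
      exact add_mem_nonunits V (mul_mem_nonunits_left V ih ha)
        (mul_mem_nonunits_right V (pow_mem hb n) hab)

/-- `a ≡ a'`, `b ≡ b'` ⟹ `a b ≡ a' b'`. -/
theorem mul_sub_mul_mem_nonunits {a a' b b' : F} (ha' : a' ∈ V) (hb : b ∈ V)
    (haa : a - a' ∈ V.nonunits) (hbb : b - b' ∈ V.nonunits) : a * b - a' * b' ∈ V.nonunits := by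
  have e : a * b - a' * b' = (a - a') * b + a' * (b - b') := by ring
  rw [e]
  exact add_mem_nonunits V (mul_mem_nonunits_left V haa hb) (mul_mem_nonunits_right V ha' hbb)

/-- In a valuation ring with `q ∈ 𝔪` (`q` prime): `x ^ q - y ^ q ∈ 𝔪 ⟹ x - y ∈ 𝔪`. -/
theorem sub_mem_nonunits_of_pow {q : ℕ} (hq : q.Prime) (hqV : ((q : ℕ) : F) ∈ V.nonunits)
    {x y : F} (hx : x ∈ V) (hy : y ∈ V) (h : x ^ q - y ^ q ∈ V.nonunits) :
    x - y ∈ V.nonunits := by
  haveI : Fact q.Prime := ⟨hq⟩
  set k := IsLocalRing.ResidueField V with hk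
  have hchar : CharP k q := by
    rw [CharP.charP_iff_prime_eq_zero hq]
    have h1 : IsLocalRing.residue V ((q : ℕ) : V) = 0 := by
      rw [IsLocalRing.residue_eq_zero_iff, ← ValuationSubring.coe_mem_nonunits_iff]
      have : (((q : ℕ) : V) : F) = ((q : ℕ) : F) := by simp
      rw [this]
      exact hqV
    rw [map_natCast] at h1
    exact h1
  set X : V := ⟨x, hx⟩
  set Y : V := ⟨y, hy⟩
  have h2 : IsLocalRing.residue V (X ^ q - Y ^ q) = 0 := by
    rw [IsLocalRing.residue_eq_zero_iff, ← ValuationSubring.coe_mem_nonunits_iff]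
    exact h
  have h3 : (IsLocalRing.residue V (X - Y)) ^ q = 0 := by
    rw [map_sub, sub_pow_char, ← map_pow, ← map_pow, ← map_sub]
    exact h2
  have h4 : IsLocalRing.residue V (X - Y) = 0 := pow_eq_zero_iff (hq.ne_zero) |>.mp h3
  rw [IsLocalRing.residue_eq_zero_iff, ← ValuationSubring.coe_mem_nonunits_iff] at h4
  exact h4

end Val

/-! ## Kronecker for the generators -/

section Kron

variable {P : ValuationSubring Qb} {E : IntermediateField ℚ Qb}

theorem natCast_mem_nonunits [IsDiscreteValuationRing (RE P E)] {q : ℕ}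
    (hP : P.LiesOverPrime q) {N : ℕ} {V : ValuationSubring (FE E N)} (hV : IsVinf P E N V) :
    ((q : ℕ) : FE E N) ∈ V.nonunits := by
  have hqE : ((q : ℕ) : E) ∈ (RE P E).nonunits := by
    rw [ValuationSubring.mem_nonunits_iff_or]
    by_cases h0 : ((q : ℕ) : E) = 0
    · exact Or.inl h0
    · right
      intro hmem
      have hmem' : algebraMap E Qb (((q : ℕ) : E)⁻¹) ∈ P := hmem
      rw [map_inv₀, map_natCast] at hmem'
      have hq' : ((q : ℕ) : Qb) ∈ P.nonunits := hP
      rw [ValuationSubring.mem_nonunits_iff_or] at hq'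
      rcases hq' with h | h
      · apply h0
        have : algebraMap E Qb ((q : ℕ) : E) = 0 := by rw [map_natCast]; exact h
        exact (map_eq_zero (algebraMap E Qb)).mp this
      · exact h hmem'
  have hmem : ((q : ℕ) : E) ∈ RE P E := ValuationSubring.nonunits_subset hqE
  have hr : (⟨((q : ℕ) : E), hmem⟩ : RE P E) ∈ IsLocalRing.maximalIdeal (RE P E) := by
    rw [← ValuationSubring.coe_mem_nonunits_iff]
    exact hqE
  have h := (A2.Mod.H13.isOver_of_isVinf hV).nonunit _ hr
  have e : algebraMap (RE P E) (FE E N) ⟨((q : ℕ) : E), hmem⟩ = ((q : ℕ) : FE E N) := by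
    rw [A2.Mod.H13.algebraMap_RE_eq]
    exact map_natCast (algebraMap E (FE E N)) q
  rw [e] at h
  exact h

theorem coe_jE_eq_jser (N d : ℕ) [NeZero d] (hd : d ∣ N) :
    ((jE E N d hd : FE E N) : LaurentSeries E) = H378.jser E d :=
  (H378.jser_eq_coeffEmb E d).symm

theorem jE_mem [IsDiscreteValuationRing (RE P E)] {N : ℕ} {V : ValuationSubring (FE E N)}
    (hV : IsVinf P E N V) (d : ℕ) [NeZero d] (hd : d ∣ N) : jE E N d hd ∈ V :=
  H378.jser_mem_V hV (coe_jE_eq_jser N d hd)

theorem jE_congr (N : ℕ) {d d' : ℕ} [NeZero d] [NeZero d'] (h : d = d') (hd : d ∣ N)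
    (hd' : d' ∣ N) : jE E N d hd = jE E N d' hd' := by
  subst h
  rfl

/-- polynomial expressions: `a ≡ b ⟹ p(a) ≡ p(b)`. -/
theorem aeval_sub_aeval_mem_nonunits {R F : Type*} [CommRing R] [Field F] [Algebra R F]
    (V : ValuationSubring F) (hR : ∀ r : R, algebraMap R F r ∈ V) {a b : F} (ha : a ∈ V)
    (hb : b ∈ V) (hab : a - b ∈ V.nonunits) (p : Polynomial R) :
    Polynomial.aeval a p - Polynomial.aeval b p ∈ V.nonunits := by
  induction p using Polynomial.induction_on' with
  | add p₁ p₂ h₁ h₂ =>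
      have e : Polynomial.aeval a (p₁ + p₂) - Polynomial.aeval b (p₁ + p₂)
          = (Polynomial.aeval a p₁ - Polynomial.aeval b p₁)
            + (Polynomial.aeval a p₂ - Polynomial.aeval b p₂) := by
        rw [map_add, map_add]; ring
      rw [e]
      exact add_mem_nonunits V h₁ h₂
  | monomial n r =>
      have e : Polynomial.aeval a (Polynomial.monomial n r)
          - Polynomial.aeval b (Polynomial.monomial n r)
          = algebraMap R F r * (a ^ n - b ^ n) := by
        rw [Polynomial.aeval_monomial, Polynomial.aeval_monomial]; ring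
      rw [e]
      exact mul_mem_nonunits_right V (hR r) (pow_sub_pow_mem_nonunits V ha hb hab n)

/-- `j_{dq} ^ q - j_d` is a unit of `V∞`. -/
theorem kron_unit_jE [IsDiscreteValuationRing (RE P E)] {q : ℕ} [NeZero q] (hq : q.Prime)
    {N : ℕ} {V : ValuationSubring (FE E N)} (hV : IsVinf P E N V)
    (d : ℕ) [NeZero d] (hd : d ∣ N) (hdq : d * q ∣ N) :
    (jE E N (d * q) hdq) ^ q - jE E N d hd ≠ 0 ∧
      ((jE E N (d * q) hdq) ^ q - jE E N d hd)⁻¹ ∈ V := by
  set x : FE E N := jE E N (d * q) hdq with hx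
  set y : FE E N := jE E N d hd with hy
  have hxc : (x : LaurentSeries E) = H378.jser E (d * q) := coe_jE_eq_jser N (d * q) hdq
  have hyc : (y : LaurentSeries E) = H378.jser E d := coe_jE_eq_jser N d hd
  have hsc : ((x ^ q - y : FE E N) : LaurentSeries E)
      = incl (RE P E) (castA (RE P E) (jInt (d * q) ^ q - jInt d)) := by
    rw [H378.incl_sInt, ← H378.valHom_apply, map_sub, map_pow, H378.valHom_apply,
      H378.valHom_apply, hxc, hyc]
  have hred := H378.red_sInt_ne_zero E (RE P E) q hq.two_le d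
  have hs0 : x ^ q - y ≠ 0 := by
    intro h
    have h1 : ((x ^ q - y : FE E N) : LaurentSeries E) = 0 := by
      rw [h]
      rfl
    rw [hsc] at h1
    exact incl_ne_zero _ (ne_zero_of_red_ne_zero _ hred) h1
  refine ⟨hs0, ?_⟩
  rw [hV, IntermediateField.coe_inv, hsc]
  refine H378.isGaussInt_inv_of_prim _ hred ?_
  rw [← hsc]
  exact (x ^ q - y).2

/-- **Kronecker congruence for the generators**: `j_{dq} ≡ j_d ^ q mod 𝔪_{V∞}`. -/
theorem kron_jE [IsDiscreteValuationRing (RE P E)] {q : ℕ} [NeZero q] (hq : q.Prime)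
    (hP : P.LiesOverPrime q) {N : ℕ} {V : ValuationSubring (FE E N)} (hV : IsVinf P E N V)
    (d : ℕ) [NeZero d] (hd : d ∣ N) (hdq : d * q ∣ N) :
    jE E N (d * q) hdq - (jE E N d hd) ^ q ∈ V.nonunits := by
  set x : FE E N := jE E N (d * q) hdq with hx
  set y : FE E N := jE E N d hd with hy
  have hxc : (x : LaurentSeries E) = H378.jser E (d * q) := coe_jE_eq_jser N (d * q) hdq
  have hyc : (y : LaurentSeries E) = H378.jser E d := coe_jE_eq_jser N d hd
  have hxV : x ∈ V := jE_mem hV (d * q) hdq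
  have hyV : y ∈ V := jE_mem hV d hd
  obtain ⟨Θ, hΘ⟩ := H378.kron_series E q hq d
  set θ : FE E N := Θ.eval₂ ((Polynomial.aeval (R := ℤ) y).toRingHom) x with hθ
  have hθV : θ ∈ V := by
    refine H378.eval₂_mem_subring _ x V.toSubring (fun r => ?_) hxV Θ
    show Polynomial.aeval y r ∈ V.toSubring
    rw [Polynomial.aeval_def]
    refine H378.eval₂_mem_subring _ y V.toSubring (fun n => ?_) hyV r
    rw [eq_intCast]
    exact intCast_mem V.toSubring n
  have hθc : (θ : LaurentSeries E) = Θ.eval₂ (evalAt (H378.jser E d)) (H378.jser E (d * q)) := by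
    rw [← H378.valHom_apply, hθ, Polynomial.hom_eval₂, H378.valHom_comp_aeval,
      H378.valHom_apply, hxc, hyc]
  -- the unit `s`
  have hsc : ((x ^ q - y : FE E N) : LaurentSeries E)
      = incl (RE P E) (castA (RE P E) (jInt (d * q) ^ q - jInt d)) := by
    rw [H378.incl_sInt, ← H378.valHom_apply, map_sub, map_pow, H378.valHom_apply,
      H378.valHom_apply, hxc, hyc]
  have hred := H378.red_sInt_ne_zero E (RE P E) q hq.two_le d
  have hs0 : x ^ q - y ≠ 0 := by
    intro h
    have h1 : ((x ^ q - y : FE E N) : LaurentSeries E) = 0 := by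
      rw [h]
      rfl
    rw [hsc] at h1
    exact incl_ne_zero _ (ne_zero_of_red_ne_zero _ hred) h1
  have hsi : (x ^ q - y)⁻¹ ∈ V := by
    rw [hV, IntermediateField.coe_inv, hsc]
    refine H378.isGaussInt_inv_of_prim _ hred ?_
    rw [← hsc]
    exact (x ^ q - y).2
  have hkey : (x ^ q - y) * (x - y ^ q) = -(((q : ℕ) : FE E N) * θ) := by
    apply Subtype.ext
    have hL : (((x ^ q - y) * (x - y ^ q) : FE E N) : LaurentSeries E)
        = (H378.jser E (d * q) ^ q - H378.jser E d) * (H378.jser E (d * q) - H378.jser E d ^ q) := by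
      rw [← H378.valHom_apply, map_mul, map_sub, map_sub, map_pow, map_pow, H378.valHom_apply,
        H378.valHom_apply, hxc, hyc]
    have hR : ((-(((q : ℕ) : FE E N) * θ) : FE E N) : LaurentSeries E)
        = -(((q : ℕ) : LaurentSeries E) *
            Θ.eval₂ (evalAt (H378.jser E d)) (H378.jser E (d * q))) := by
      rw [← H378.valHom_apply, map_neg, map_mul, map_natCast, H378.valHom_apply, hθc]
    rw [hL, hR]
    linear_combination hΘ
  have hfin : x - y ^ q = (x ^ q - y)⁻¹ * -(((q : ℕ) : FE E N) * θ) := by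
    rw [← hkey, ← mul_assoc, inv_mul_cancel₀ hs0, one_mul]
  rw [hfin]
  exact mul_mem_nonunits_right V hsi
    (neg_mem_nonunits V (mul_mem_nonunits_left V (natCast_mem_nonunits hP hV) hθV))

end Kron

end Fermat.Agent.S36.H816

end
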