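import Fermat.Agent.S36.H816.SymKron
import Fermat.Agent.A2.H489.TwoExtD
import Fermat.Agent.A2.Mod.H816.L8
import Fermat.Agent.A2.Mod.H553.VzeroNe
import Fermat.Agent.A2.Mod.H753.IndInf
import Fermat.Agent.A2.Mod.H753.IndZero

/-!
# S36 / MOD3-SYM, part 3 (helper816): the middle valuation and `β`

Levels `N' = M q` (`q ∤ M`) and `N = M q²`, `α = heckeAlphaBar E (M q) q`,
`β = heckeBetaBar E (M q) q : F_{N'} → F_N`.  `V₁ = V∞(N')`, `V₂ = V₁ ∘ W₁` (Fricke of level `N'`).

A valuation subring `Vm` of `F_N` is a **middle** valuation ring (`IsMid V₁ Vm`) if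
`Vm.comap α = V₁` and `π = j_{q²} - j ∈ 𝔪_{Vm}`   (this is how `V_mid` is produced by the
Eisenstein-split theorem of helper972: the extension of `V₁` with `j_{q²} ≡ j`).

* `IsMid.comap_beta` : `Vm.comap β = V₂`                        (table, row MID, column `β`);
* `IsMid.gen_cong`   : `j_{d q²} ≡ j_d mod 𝔪_{Vm}` for every `d ∣ M`;
* `IsMid.fricke`     : `IsMid V₁ (Vm ∘ W)`, `W` the Fricke involution of level `N`.
-/

set_option autoImplicit false
set_option linter.unusedSectionVars false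
set_option linter.style.haveILetI false
set_option synthInstance.maxHeartbeats 400000
set_option maxHeartbeats 1600000

noncomputable section

namespace Fermat.Agent.S36.H816

open ModularCurve HahnSeries Polynomial IntermediateField
open Fermat.Agent Fermat.Agent.A2.Mod Fermat.Agent.A2.H708 Fermat.Agent.S28

variable {P : ValuationSubring Qb} {E : IntermediateField ℚ Qb}

/-! ## Polar elements -/

section Polar

variable {N : ℕ}

theorem isPolar_one : A2.Mod.H13.IsPolar E N (1 : FE E N) 0 := by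
  refine ⟨1, ⟨fun n hn => ?_, ?_⟩, ?_⟩
  · have hn' : n ≠ 0 := by
      intro h
      rw [h] at hn
      simp at hn
    show (1 : LaurentSeries ℤ).coeff n = 0
    rw [HahnSeries.coeff_one, if_neg hn']
  · show (1 : LaurentSeries ℤ).coeff (-((0 : ℕ) : ℤ)) = 1
    simp
  · show ((1 : FE E N) : LaurentSeries E) = coeffEmb E (castQ 1)
    rw [map_one, map_one]
    rfl

theorem isPolar_pow {u : FE E N} {a : ℕ} (h : A2.Mod.H13.IsPolar E N u a) (n : ℕ) :
    A2.Mod.H13.IsPolar E N (u ^ n) (n * a) := by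
  induction n with
  | zero => rw [pow_zero, Nat.zero_mul]; exact isPolar_one
  | succ n ih =>
      rw [pow_succ, Nat.succ_mul]
      exact ih.mul h

theorem transcendental_jE (N : ℕ) (d : ℕ) [NeZero d] (hd : d ∣ N) :
    Transcendental E (jE E N d hd) := by
  refine A2.Mod.H816.transcendental_of_addVal_ne_zero (A2.Mod.H816.vInf E N)
    (fun c hc => A2.Mod.H816.vInf_algebraMap E _ hc) (a := -(d : ℤ)) ?_
    (A2.Mod.H816.vInf_jE E N d hd)
  have : (d : ℤ) ≠ 0 := by exact_mod_cast NeZero.ne d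
  omega

end Polar

/-! ## Middle valuation rings -/

section Mid

variable (E) (M q : ℕ) [NeZero M] [NeZero q]

/-- `π = j_{q²} - j` at level `M q²`. -/
def piMid : FE E (M * q * q) :=
  jE E (M * q * q) (q * q) (Dvd.intro_left M (mul_assoc M q q).symm) -
    jE E (M * q * q) 1 (one_dvd _)

variable {E M q}

/-- `Vm` is a middle valuation ring of level `M q²`: it lies over `V₁ = V∞(M q)` via `α` and
`j_{q²} ≡ j`. -/
structure IsMid (V₁ : ValuationSubring (FE E (M * q)))
    (Vm : ValuationSubring (FE E (M * q * q))) : Prop where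
  comap_alpha : ∀ g : FE E (M * q), heckeAlphaBar E (M * q) q g ∈ Vm ↔ g ∈ V₁
  pi_mem : piMid E M q ∈ Vm.nonunits

variable {w : RE P E} {V₁ : ValuationSubring (FE E (M * q))}
  {Vm : ValuationSubring (FE E (M * q * q))}

namespace IsMid

theorem alpha_nonunits (h : IsMid V₁ Vm) (g : FE E (M * q)) :
    heckeAlphaBar E (M * q) q g ∈ Vm.nonunits ↔ g ∈ V₁.nonunits :=
  mem_nonunits_iff_of_comap (heckeAlphaBar E (M * q) q : FE E (M * q) →+* FE E (M * q * q))
    h.comap_alpha g

/-- generators of level `M q` lie in `Vm`. -/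
theorem jE_mem_of_dvd [IsDiscreteValuationRing (RE P E)] (h : IsMid V₁ Vm)
    (hV₁ : IsVinf P E (M * q) V₁) (d : ℕ) [NeZero d] (hd : d ∣ M * q) :
    jE E (M * q * q) d (hd.trans (dvd_mul_right _ q)) ∈ Vm := by
  rw [← A2.Mod.H553.αE_jE E (M * q) q d hd]
  exact (h.comap_alpha _).mpr (jE_mem hV₁ d hd)

theorem natCast_mem (h : IsMid V₁ Vm) [IsDiscreteValuationRing (RE P E)]
    (hP : P.LiesOverPrime q) (hV₁ : IsVinf P E (M * q) V₁) :
    ((q : ℕ) : FE E (M * q * q)) ∈ Vm.nonunits := by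
  have h1 := (h.alpha_nonunits ((q : ℕ) : FE E (M * q))).mpr (natCast_mem_nonunits hP hV₁)
  rwa [map_natCast] at h1

/-- `j_{dq} ≡ j_d ^ q mod 𝔪_{Vm}` for `d ∣ M` (Kronecker on `V₁`, pushed by `α`). -/
theorem kronA [IsDiscreteValuationRing (RE P E)] (h : IsMid V₁ Vm) (hq : q.Prime)
    (hP : P.LiesOverPrime q) (hV₁ : IsVinf P E (M * q) V₁) (d : ℕ) [NeZero d] (hd : d ∣ M) :
    jE E (M * q * q) (d * q) ((mul_dvd_mul_right hd q).trans (dvd_mul_right _ q)) -
      (jE E (M * q * q) d ((hd.trans (dvd_mul_right M q)).trans (dvd_mul_right _ q))) ^ q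
      ∈ Vm.nonunits := by
  have h1 := kron_jE hq hP hV₁ d (hd.trans (dvd_mul_right M q)) (mul_dvd_mul_right hd q)
  have h2 := (h.alpha_nonunits _).mpr h1
  rw [map_sub, map_pow, A2.Mod.H553.αE_jE, A2.Mod.H553.αE_jE] at h2
  exact h2

/-- `j_{q²} ∈ Vm`. -/
theorem jqq_mem [IsDiscreteValuationRing (RE P E)] (h : IsMid V₁ Vm)
    (hV₁ : IsVinf P E (M * q) V₁) :
    jE E (M * q * q) (q * q) (Dvd.intro_left M (mul_assoc M q q).symm) ∈ Vm := by
  have h1 : jE E (M * q * q) (q * q) (Dvd.intro_left M (mul_assoc M q q).symm)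
      = piMid E M q + jE E (M * q * q) 1 (one_dvd _) := by
    rw [piMid]; ring
  rw [h1]
  exact Vm.add_mem _ _ (mem_of_mem_nonunits Vm h.pi_mem)
    (h.jE_mem_of_dvd hV₁ 1 (one_dvd _))

/-- `β x ≡ α (j ^ (q+1)) mod 𝔪_{Vm}`, `x = j j_q` the coordinate of level `M q`. -/
theorem beta_xE_sub [IsDiscreteValuationRing (RE P E)] (h : IsMid V₁ Vm) (hq : q.Prime)
    (hP : P.LiesOverPrime q) (hV₁ : IsVinf P E (M * q) V₁) :
    heckeBetaBar E (M * q) q (xE E M q) -
      heckeAlphaBar E (M * q) q ((jE E (M * q) 1 (one_dvd _)) ^ (q + 1)) ∈ Vm.nonunits := by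
  have hA := h.kronA hq hP hV₁ 1 (one_dvd M)
  have hπ := h.pi_mem
  rw [piMid] at hπ
  have e1 : heckeBetaBar E (M * q) q (xE E M q)
      = jE E (M * q * q) (1 * q) ((mul_dvd_mul_right (one_dvd M) q).trans (dvd_mul_right _ q)) *
        jE E (M * q * q) (q * q) (Dvd.intro_left M (mul_assoc M q q).symm) := by
    rw [xE, map_mul]
    have hb1 := A2.Mod.H553.βE_jE E (M * q) q 1 (one_dvd _)
    have hb2 := A2.Mod.H553.βE_jE E (M * q) q q (dvd_mul_left q M)
    rw [show heckeBetaBar E (M * q) q = βE E (M * q) q from rfl, hb1, hb2]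
  have e2 : heckeAlphaBar E (M * q) q ((jE E (M * q) 1 (one_dvd _)) ^ (q + 1))
      = (jE E (M * q * q) 1 (one_dvd _)) ^ q * jE E (M * q * q) 1 (one_dvd _) := by
    rw [map_pow, show heckeAlphaBar E (M * q) q = αE E (M * q) q from rfl,
      A2.Mod.H553.αE_jE E (M * q) q 1 (one_dvd _), pow_succ]
  rw [e1, e2]
  exact mul_sub_mul_mem_nonunits Vm
    (Vm.pow_mem (h.jE_mem_of_dvd hV₁ 1 (one_dvd _)) q) (h.jqq_mem hV₁) hA hπ

end IsMid

end Mid

/-! ## `Vm ∘ β` induces the Gauss valuation on `E(x)` -/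

section Gauss

variable {M q : ℕ} [NeZero M] [NeZero q]
variable {w : RE P E} {V₁ : ValuationSubring (FE E (M * q))}
  {Vm : ValuationSubring (FE E (M * q * q))}

theorem mem_nonunits_comap_iff {F F' : Type*} [Field F] [Field F'] (φ : F' →+* F)
    (V : ValuationSubring F) (g : F') : g ∈ (V.comap φ).nonunits ↔ φ g ∈ V.nonunits :=
  (mem_nonunits_iff_of_comap φ (fun _ => ValuationSubring.mem_comap.symm) g).symm

theorem beta_algebraMap_RE [IsDiscreteValuationRing (RE P E)] (r : RE P E) :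
    heckeBetaBar E (M * q) q (algebraMap (RE P E) (FE E (M * q)) r)
      = heckeAlphaBar E (M * q) q (algebraMap (RE P E) (FE E (M * q)) r) := by
  rw [A2.Mod.H13.algebraMap_RE_eq, AlgHom.commutes, AlgHom.commutes]

/-- `Vm.comap β` lies over `R_E`. -/
theorem IsMid.isOver_comap_beta [IsDiscreteValuationRing (RE P E)] (h : IsMid V₁ Vm)
    (hV₁ : IsVinf P E (M * q) V₁) :
    A2.H489.IsOver (RE P E)
      (Vm.comap (heckeBetaBar E (M * q) q : FE E (M * q) →+* FE E (M * q * q))) where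
  mem := fun r => by
    rw [ValuationSubring.mem_comap]
    have h1 : heckeBetaBar E (M * q) q (algebraMap (RE P E) (FE E (M * q)) r) ∈ Vm := by
      rw [beta_algebraMap_RE]
      exact (h.comap_alpha _).mpr ((A2.Mod.H13.isOver_of_isVinf hV₁).mem r)
    exact h1
  nonunit := fun r hr => by
    rw [mem_nonunits_comap_iff]
    have h1 : heckeBetaBar E (M * q) q (algebraMap (RE P E) (FE E (M * q)) r) ∈ Vm.nonunits := by
      rw [beta_algebraMap_RE]
      exact (h.alpha_nonunits _).mpr ((A2.Mod.H13.isOver_of_isVinf hV₁).nonunit r hr)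
    exact h1

/-- **`Vm ∘ β` induces the Gauss valuation on `E(x)`**, `x = j j_q`. -/
theorem IsMid.isGaussOver_comap_beta (h : IsMid V₁ Vm) (hS : Setting P E M q w)
    (hV₁ : IsVinf P E (M * q) V₁) :
    haveI := hS.dvr
    A2.H489.IsGaussOver (RE P E)
      (Vm.comap (heckeBetaBar E (M * q) q : FE E (M * q) →+* FE E (M * q * q)))
      (xE E M q) := by
  haveI := hS.dvr
  have hq := hS.q_prime
  have hP := hS.lies_over
  -- the polar element `u₀ = j ^ (q + 1)` and its Gauss property on `V₁`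
  set u₀ : FE E (M * q) := (jE E (M * q) 1 (one_dvd _)) ^ (q + 1) with hu₀
  have hpol : A2.Mod.H13.IsPolar E (M * q) u₀ (q + 1) := by
    have := isPolar_pow (A2.Mod.H13.isPolar_jE (E := E) (N := M * q) 1 (one_dvd _)) (q + 1)
    rwa [mul_one] at this
  have htr : Transcendental E u₀ :=
    (transcendental_jE (E := E) (M * q) 1 (one_dvd _)).pow (Nat.succ_pos q)
  have hG₀ : A2.H489.IsGaussOver (RE P E) V₁ u₀ :=
    A2.Mod.H13.isGaussOver_of_polar hV₁ hS.unif (NeZero.ne _) (Nat.succ_pos q) hpol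
      (A2.Mod.H13.transcendental_RE htr)
  have hx := h.beta_xE_sub hq hP hV₁
  have hαu : heckeAlphaBar E (M * q) q u₀ ∈ Vm := (h.comap_alpha _).mpr hG₀.mem
  have hβx : heckeBetaBar E (M * q) q (xE E M q) ∈ Vm := by
    have e : heckeBetaBar E (M * q) q (xE E M q)
        = (heckeBetaBar E (M * q) q (xE E M q) - heckeAlphaBar E (M * q) q u₀)
          + heckeAlphaBar E (M * q) q u₀ := by ring
    rw [e]
    exact Vm.add_mem _ _ (mem_of_mem_nonunits Vm hx) hαu
  refine ⟨h.isOver_comap_beta hV₁, ValuationSubring.mem_comap.mpr hβx, ?_⟩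
  intro p hp
  by_contra hne
  rw [mem_nonunits_comap_iff] at hp
  -- `aeval u₀ p` is a unit of `V₁`
  have h1 : aeval u₀ p ∉ V₁.nonunits := fun hmem => hne (hG₀.prim p hmem)
  have h2 : heckeAlphaBar E (M * q) q (aeval u₀ p) ∉ Vm.nonunits :=
    fun hmem => h1 ((h.alpha_nonunits _).mp hmem)
  have eα : heckeAlphaBar E (M * q) q (aeval u₀ p)
      = aeval (heckeAlphaBar E (M * q) q u₀) p :=
    (Polynomial.aeval_algHom_apply ((heckeAlphaBar E (M * q) q).restrictScalars (RE P E))
      u₀ p).symm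
  have eβ : heckeBetaBar E (M * q) q (aeval (xE E M q) p)
      = aeval (heckeBetaBar E (M * q) q (xE E M q)) p :=
    (Polynomial.aeval_algHom_apply ((heckeBetaBar E (M * q) q).restrictScalars (RE P E))
      (xE E M q) p).symm
  have hR : ∀ r : RE P E, algebraMap (RE P E) (FE E (M * q * q)) r ∈ Vm := by
    intro r
    have e : algebraMap (RE P E) (FE E (M * q * q)) r
        = heckeAlphaBar E (M * q) q (algebraMap (RE P E) (FE E (M * q)) r) := by
      rw [A2.Mod.H13.algebraMap_RE_eq, A2.Mod.H13.algebraMap_RE_eq, AlgHom.commutes]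
    rw [e]
    exact (h.comap_alpha _).mpr ((A2.Mod.H13.isOver_of_isVinf hV₁).mem r)
  have h3 := aeval_sub_aeval_mem_nonunits Vm hR hβx hαu hx p
  have hp' : (heckeBetaBar E (M * q) q : FE E (M * q) →+* FE E (M * q * q))
      (aeval (xE E M q) p) ∈ Vm.nonunits := hp
  have hp'' : aeval (heckeBetaBar E (M * q) q (xE E M q)) p ∈ Vm.nonunits := by
    rw [← eβ]
    exact hp'
  apply h2
  rw [eα]
  have e : aeval (heckeAlphaBar E (M * q) q u₀) p
      = aeval (heckeBetaBar E (M * q) q (xE E M q)) p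
        - (aeval (heckeBetaBar E (M * q) q (xE E M q)) p
            - aeval (heckeAlphaBar E (M * q) q u₀) p) := by ring
  rw [e]
  exact sub_mem_nonunits Vm hp'' h3

end Gauss

end Fermat.Agent.S36.H816

end
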