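import Fermat.Agent.S36.H816.SymBeta

/-!
# S36 / MOD3-SYM, part 5 (helper816): the `β` column of the middle row

Levels `N' = M q` (`q ∤ M`), `N = M q²`; `α = heckeAlphaBar E (M q) q`, `β = heckeBetaBar E (M q) q`;
`V₁ = V∞(N')`, `V₂ = V₁ ∘ W₁`, `Vm` a middle valuation ring (`IsMid V₁ Vm`).

* `IsMid.comap_beta_eq_or` : `Vm.comap β ∈ {V₁, V₂}`   (two-extension theorem at level `M q`);
* `IsMid.comap_beta_ne`    : `Vm.comap β ≠ V₁`          (Kronecker unit);
* `IsMid.comap_beta`       : `β g ∈ Vm ↔ g ∈ V₂`        (table, row MID, column `β`);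
* `IsMid.gen_cong`         : `j_{d q²} ≡ j_d mod 𝔪_{Vm}`, `d ∣ M`;
* `IsMid.fricke`           : `IsMid V₁ (Vm ∘ W₂)`, `W₂` the Fricke involution of level `M q²`.
-/

set_option autoImplicit false
set_option linter.unusedSectionVars false
set_option linter.style.haveILetI false
set_option synthInstance.maxHeartbeats 400000
set_option maxHeartbeats 1600000

noncomputable section

namespace Fermat.Agent.S36.H816

open ModularCurve HahnSeries Polynomial IntermediateField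
open Fermat.Agent Fermat.Agent.A2.Mod Fermat.Agent.A2.H708 Fermat.Agent.S28

variable {P : ValuationSubring Qb} {E : IntermediateField ℚ Qb}
variable {M q : ℕ} [NeZero M] [NeZero q]
variable {w : RE P E} {V₁ : ValuationSubring (FE E (M * q))}
  {Vm : ValuationSubring (FE E (M * q * q))}

namespace IsMid

/-- `Vm.comap β` is `V∞` or `V₀` of level `M q`. -/
theorem comap_beta_eq_or (h : IsMid V₁ Vm) (hS : Setting P E M q w)
    (hV₁ : IsVinf P E (M * q) V₁) {W₁ : FE E (M * q) ≃ₐ[E] FE E (M * q)}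
    (hW₁ : IsFricke E (M * q) W₁) :
    Vm.comap (heckeBetaBar E (M * q) q : FE E (M * q) →+* FE E (M * q * q)) = V₁ ∨
      Vm.comap (heckeBetaBar E (M * q) q : FE E (M * q) →+* FE E (M * q * q))
        = V₁.comap (W₁ : FE E (M * q) →+* FE E (M * q)) :=
  eq_or_eq_of_isGaussOver hS hV₁ hW₁ (h.isGaussOver_comap_beta hS hV₁)

/-- `Vm.comap β ≠ V∞`: otherwise `j_q ^ q ≡ j` on `V∞`, contradicting the Kronecker unit. -/
theorem comap_beta_ne [IsDiscreteValuationRing (RE P E)] (h : IsMid V₁ Vm) (hq : q.Prime)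
    (hP : P.LiesOverPrime q) (hV₁ : IsVinf P E (M * q) V₁) :
    Vm.comap (heckeBetaBar E (M * q) q : FE E (M * q) →+* FE E (M * q * q)) ≠ V₁ := by
  intro heq
  have hd1 : (1 : ℕ) ∣ M * q := one_dvd _
  have hdq : 1 * q ∣ M * q := mul_dvd_mul_right (one_dvd M) q
  have h1 := kron_jE hq hP hV₁ 1 hd1 hdq
  rw [← heq, mem_nonunits_comap_iff] at h1
  have h2 : heckeBetaBar E (M * q) q (jE E (M * q) (1 * q) hdq - (jE E (M * q) 1 hd1) ^ q)
      ∈ Vm.nonunits := h1
  rw [map_sub, map_pow, show heckeBetaBar E (M * q) q = βE E (M * q) q from rfl,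
    A2.Mod.H553.βE_jE E (M * q) q (1 * q) hdq, A2.Mod.H553.βE_jE E (M * q) q 1 hd1] at h2
  have hπ := h.pi_mem
  rw [piMid] at hπ
  have e1 : jE E (M * q * q) (1 * q * q) (mul_dvd_mul_right hdq q)
      = jE E (M * q * q) (q * q) (Dvd.intro_left M (mul_assoc M q q).symm) :=
    jE_congr (M * q * q) (by rw [one_mul]) _ _
  rw [e1] at h2
  obtain ⟨hne, hinv⟩ := kron_unit_jE hq hV₁ 1 hd1 hdq
  have h3 : heckeAlphaBar E (M * q) q ((jE E (M * q) (1 * q) hdq) ^ q - jE E (M * q) 1 hd1)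
      ∈ Vm.nonunits := by
    rw [map_sub, map_pow, show heckeAlphaBar E (M * q) q = αE E (M * q) q from rfl,
      A2.Mod.H553.αE_jE E (M * q) q (1 * q) hdq, A2.Mod.H553.αE_jE E (M * q) q 1 hd1]
    have e : (jE E (M * q * q) (1 * q) (hdq.trans (dvd_mul_right _ q))) ^ q
          - jE E (M * q * q) 1 (hd1.trans (dvd_mul_right _ q))
        = (jE E (M * q * q) (q * q) (Dvd.intro_left M (mul_assoc M q q).symm)
            - jE E (M * q * q) 1 (one_dvd _))
          - (jE E (M * q * q) (q * q) (Dvd.intro_left M (mul_assoc M q q).symm)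
            - (jE E (M * q * q) (1 * q) (mul_dvd_mul_right hd1 q)) ^ q) := by ring
    rw [e]
    exact sub_mem_nonunits Vm hπ h2
  have h4 := (h.alpha_nonunits _).mp h3
  rw [ValuationSubring.mem_nonunits_iff_or] at h4
  rcases h4 with h4 | h4
  · exact hne h4
  · exact h4 hinv

/-- **Table, row MID, column `β`**: `Vm.comap β = V₀ = V∞ ∘ W₁` at level `M q`. -/
theorem comap_beta_eq (h : IsMid V₁ Vm) (hS : Setting P E M q w)
    (hV₁ : IsVinf P E (M * q) V₁) {W₁ : FE E (M * q) ≃ₐ[E] FE E (M * q)}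
    (hW₁ : IsFricke E (M * q) W₁) :
    Vm.comap (heckeBetaBar E (M * q) q : FE E (M * q) →+* FE E (M * q * q))
      = V₁.comap (W₁ : FE E (M * q) →+* FE E (M * q)) := by
  haveI := hS.dvr
  rcases h.comap_beta_eq_or hS hV₁ hW₁ with h1 | h1
  · exact absurd h1 (h.comap_beta_ne hS.q_prime hS.lies_over hV₁)
  · exact h1

theorem comap_beta (h : IsMid V₁ Vm) (hS : Setting P E M q w)
    (hV₁ : IsVinf P E (M * q) V₁) {W₁ : FE E (M * q) ≃ₐ[E] FE E (M * q)}
    (hW₁ : IsFricke E (M * q) W₁) (g : FE E (M * q)) :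
    heckeBetaBar E (M * q) q g ∈ Vm ↔ W₁ g ∈ V₁ := by
  have h1 := h.comap_beta_eq hS hV₁ hW₁
  have h2 : g ∈ Vm.comap (heckeBetaBar E (M * q) q : FE E (M * q) →+* FE E (M * q * q))
      ↔ g ∈ V₁.comap (W₁ : FE E (M * q) →+* FE E (M * q)) := by rw [h1]
  rw [ValuationSubring.mem_comap, ValuationSubring.mem_comap] at h2
  exact h2

theorem beta_nonunits (h : IsMid V₁ Vm) (hS : Setting P E M q w)
    (hV₁ : IsVinf P E (M * q) V₁) {W₁ : FE E (M * q) ≃ₐ[E] FE E (M * q)}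
    (hW₁ : IsFricke E (M * q) W₁) (g : FE E (M * q)) :
    heckeBetaBar E (M * q) q g ∈ Vm.nonunits ↔ W₁ g ∈ V₁.nonunits := by
  have h1 := h.comap_beta_eq hS hV₁ hW₁
  have h2 : g ∈ (Vm.comap (heckeBetaBar E (M * q) q : FE E (M * q) →+* FE E (M * q * q))).nonunits
      ↔ g ∈ (V₁.comap (W₁ : FE E (M * q) →+* FE E (M * q))).nonunits := by rw [h1]
  rw [mem_nonunits_comap_iff, mem_nonunits_comap_iff] at h2
  exact h2

/-- `j_{d q} ≡ j_{d q²} ^ q mod 𝔪_{Vm}` for `d ∣ M` (Kronecker on `V₀ = V∞ ∘ W₁`, pushed by `β`). -/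
theorem kronB (h : IsMid V₁ Vm) (hS : Setting P E M q w)
    (hV₁ : IsVinf P E (M * q) V₁) {W₁ : FE E (M * q) ≃ₐ[E] FE E (M * q)}
    (hW₁ : IsFricke E (M * q) W₁) (d : ℕ) [NeZero d] (hd : d ∣ M) :
    jE E (M * q * q) (d * q) ((mul_dvd_mul_right hd q).trans (dvd_mul_right _ q)) -
      (jE E (M * q * q) (d * q * q) (mul_dvd_mul_right (mul_dvd_mul_right hd q) q)) ^ q
      ∈ Vm.nonunits := by
  haveI := hS.dvr
  obtain ⟨e, he⟩ := hd
  have he0 : e ≠ 0 := by
    rintro rfl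
    exact NeZero.ne M (by rw [he, mul_zero])
  haveI : NeZero e := ⟨he0⟩
  have hdM : d ∣ M := ⟨e, he⟩
  have heM : e ∣ M := ⟨d, by rw [he, mul_comm]⟩
  have hd1 : d ∣ M * q := hdM.trans (dvd_mul_right M q)
  have hd2 : d * q ∣ M * q := mul_dvd_mul_right hdM q
  have he1 : e ∣ M * q := heM.trans (dvd_mul_right M q)
  have he2 : e * q ∣ M * q := mul_dvd_mul_right heM q
  have hk := kron_jE hS.q_prime hS.lies_over hV₁ e he1 he2
  have hw1 : W₁ (jE E (M * q) d hd1) = jE E (M * q) (e * q) he2 :=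
    hW₁.1 d (e * q) hd1 he2 (by rw [he]; ring)
  have hw2 : W₁ (jE E (M * q) (d * q) hd2) = jE E (M * q) e he1 :=
    hW₁.1 (d * q) e hd2 he1 (by rw [he]; ring)
  have h1 : W₁ (jE E (M * q) d hd1 - (jE E (M * q) (d * q) hd2) ^ q) ∈ V₁.nonunits := by
    rw [map_sub, map_pow, hw1, hw2]
    exact hk
  have h2 := (h.beta_nonunits hS hV₁ hW₁ _).mpr h1
  rw [map_sub, map_pow, show heckeBetaBar E (M * q) q = βE E (M * q) q from rfl,
    A2.Mod.H553.βE_jE E (M * q) q d hd1, A2.Mod.H553.βE_jE E (M * q) q (d * q) hd2] at h2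
  exact h2

/-- `j_{d q²} ∈ Vm` for `d ∣ M`. -/
theorem jE_mem_qq (h : IsMid V₁ Vm) (hS : Setting P E M q w)
    (hV₁ : IsVinf P E (M * q) V₁) {W₁ : FE E (M * q) ≃ₐ[E] FE E (M * q)}
    (hW₁ : IsFricke E (M * q) W₁) (d : ℕ) [NeZero d] (hd : d ∣ M) :
    jE E (M * q * q) (d * q * q) (mul_dvd_mul_right (mul_dvd_mul_right hd q) q) ∈ Vm := by
  haveI := hS.dvr
  obtain ⟨e, he⟩ := hd
  have he0 : e ≠ 0 := by
    rintro rfl
    exact NeZero.ne M (by rw [he, mul_zero])
  haveI : NeZero e := ⟨he0⟩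
  have hdM : d ∣ M := ⟨e, he⟩
  have heM : e ∣ M := ⟨d, by rw [he, mul_comm]⟩
  have hd2 : d * q ∣ M * q := mul_dvd_mul_right hdM q
  have he1 : e ∣ M * q := heM.trans (dvd_mul_right M q)
  have hw2 : W₁ (jE E (M * q) (d * q) hd2) = jE E (M * q) e he1 :=
    hW₁.1 (d * q) e hd2 he1 (by rw [he]; ring)
  have h1 : W₁ (jE E (M * q) (d * q) hd2) ∈ V₁ := by
    rw [hw2]
    exact jE_mem hV₁ e he1
  have h2 := (h.comap_beta hS hV₁ hW₁ _).mpr h1
  rw [show heckeBetaBar E (M * q) q = βE E (M * q) q from rfl,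
    A2.Mod.H553.βE_jE E (M * q) q (d * q) hd2] at h2
  exact h2

/-- **Generator congruences** on a middle valuation ring: `j_{d q²} ≡ j_d mod 𝔪_{Vm}`, `d ∣ M`. -/
theorem gen_cong (h : IsMid V₁ Vm) (hS : Setting P E M q w)
    (hV₁ : IsVinf P E (M * q) V₁) {W₁ : FE E (M * q) ≃ₐ[E] FE E (M * q)}
    (hW₁ : IsFricke E (M * q) W₁) (d : ℕ) [NeZero d] (hd : d ∣ M) :
    jE E (M * q * q) (d * q * q) (mul_dvd_mul_right (mul_dvd_mul_right hd q) q) -
      jE E (M * q * q) d ((hd.trans (dvd_mul_right M q)).trans (dvd_mul_right _ q))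
      ∈ Vm.nonunits := by
  haveI := hS.dvr
  have hA := h.kronA hS.q_prime hS.lies_over hV₁ d hd
  have hB := h.kronB hS hV₁ hW₁ d hd
  have hx := h.jE_mem_qq hS hV₁ hW₁ d hd
  have hy := h.jE_mem_of_dvd hV₁ d (hd.trans (dvd_mul_right M q))
  refine sub_mem_nonunits_of_pow Vm hS.q_prime (h.natCast_mem hS.lies_over hV₁) hx hy ?_
  have e : (jE E (M * q * q) (d * q * q) (mul_dvd_mul_right (mul_dvd_mul_right hd q) q)) ^ q
        - (jE E (M * q * q) d ((hd.trans (dvd_mul_right M q)).trans (dvd_mul_right _ q))) ^ q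
      = (jE E (M * q * q) (d * q) ((mul_dvd_mul_right hd q).trans (dvd_mul_right _ q))
          - (jE E (M * q * q) d ((hd.trans (dvd_mul_right M q)).trans (dvd_mul_right _ q))) ^ q)
        - (jE E (M * q * q) (d * q) ((mul_dvd_mul_right hd q).trans (dvd_mul_right _ q))
          - (jE E (M * q * q) (d * q * q)
              (mul_dvd_mul_right (mul_dvd_mul_right hd q) q)) ^ q) := by ring
  rw [e]
  exact sub_mem_nonunits Vm hA hB

/-- **Fricke stability** of the middle row: `Vm ∘ W₂` is again a middle valuation ring. -/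
theorem fricke (h : IsMid V₁ Vm) (hS : Setting P E M q w)
    (hV₁ : IsVinf P E (M * q) V₁) {W₁ : FE E (M * q) ≃ₐ[E] FE E (M * q)}
    (hW₁ : IsFricke E (M * q) W₁) {W₂ : FE E (M * q * q) ≃ₐ[E] FE E (M * q * q)}
    (hW₂ : IsFricke E (M * q * q) W₂) :
    IsMid V₁ (Vm.comap (W₂ : FE E (M * q * q) →+* FE E (M * q * q))) where
  comap_alpha := fun g => by
    rw [ValuationSubring.mem_comap]
    have h1 := (A2.Mod.H553.frickeCompat E (M * q) q W₁ W₂ hW₁ hW₂ g).1
    have h2 : (W₂ : FE E (M * q * q) →+* FE E (M * q * q)) (heckeAlphaBar E (M * q) q g)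
        = heckeBetaBar E (M * q) q (W₁ g) := h1
    rw [h2, h.comap_beta hS hV₁ hW₁, hW₁.2]
  pi_mem := by
    rw [mem_nonunits_comap_iff]
    have hM : M ≠ 0 := NeZero.ne M
    have hdM : M ∣ M * q * q := ⟨q * q, by ring⟩
    have hdN : M * q * q ∣ M * q * q := dvd_rfl
    have hw1 : W₂ (jE E (M * q * q) (q * q) (Dvd.intro_left M (mul_assoc M q q).symm))
        = jE E (M * q * q) M hdM :=
      hW₂.1 (q * q) M _ hdM (by ring)
    have hw2 : W₂ (jE E (M * q * q) 1 (one_dvd _)) = jE E (M * q * q) (M * q * q) hdN :=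
      hW₂.1 1 (M * q * q) _ hdN (by ring)
    have h1 : (W₂ : FE E (M * q * q) →+* FE E (M * q * q)) (piMid E M q)
        = jE E (M * q * q) M hdM - jE E (M * q * q) (M * q * q) hdN := by
      show W₂ (piMid E M q) = _
      rw [piMid, map_sub, hw1, hw2]
    rw [h1]
    have h2 := h.gen_cong hS hV₁ hW₁ M dvd_rfl
    have e : jE E (M * q * q) M hdM - jE E (M * q * q) (M * q * q) hdN
        = -(jE E (M * q * q) (M * q * q) (mul_dvd_mul_right (mul_dvd_mul_right dvd_rfl q) q)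
            - jE E (M * q * q) M
              (((dvd_refl M).trans (dvd_mul_right M q)).trans (dvd_mul_right _ q))) := by ring
    rw [e]
    exact neg_mem_nonunits _ h2

end IsMid

end Fermat.Agent.S36.H816

end
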